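import Fermat.Agent.S57.Generators
import Mathlib.RingTheory.Regular.Free
import Mathlib.RingTheory.LocalRing.MaximalIdeal.Basic

set_option autoImplicit false

namespace Fermat.Agent.S57

open IsLocalRing RingTheory.Sequence Submodule

universe u v

/-- Lemma D. -/
theorem free_of_isWeaklyRegular_generators (n : ℕ) :
    ∀ (B : Type u) [CommRing B] [IsLocalRing B] [IsNoetherianRing B]
      (N : Type v) [AddCommGroup N] [Module B N] [Module.Finite B N] (xs : List B),
      xs.length = n → Ideal.ofList xs = maximalIdeal B → IsWeaklyRegular N xs →
      Module.Free B N := by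
  induction n with
  | zero =>
    intro B _ _ _ N _ _ _ xs hlen hm _
    rw [List.length_eq_zero_iff] at hlen
    subst hlen
    rw [Ideal.ofList_nil] at hm
    have hf : IsField B := IsLocalRing.isField_iff_maximalIdeal_eq.mpr hm.symm
    let _ := hf.toField
    exact Module.Free.of_divisionRing B N
  | succ n ih =>
    intro B _ _ _ N _ _ _ xs hlen hm hreg
    match xs, hlen with
    | x :: xs, hlen =>
      rw [isWeaklyRegular_cons_iff'] at hreg
      have hxm : x ∈ maximalIdeal B := by
        rw [← hm]
        exact Ideal.subset_span List.mem_cons_self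
      have hne : Ideal.span {x} ≠ ⊤ := by
        intro h
        rw [Ideal.span_singleton_eq_top] at h
        exact hxm h
      have : Nontrivial (B ⧸ Ideal.span {x}) := Ideal.Quotient.nontrivial_iff.mpr hne
      have : IsLocalRing (B ⧸ Ideal.span {x}) :=
        IsLocalRing.of_surjective' (Ideal.Quotient.mk _) Ideal.Quotient.mk_surjective
      have : Module.Finite (B ⧸ Ideal.span {x}) (QuotSMulTop x N) :=
        Module.Finite.of_restrictScalars_finite B (B ⧸ Ideal.span {x}) (QuotSMulTop x N)
      have hfree : Module.Free (B ⧸ Ideal.span {x}) (QuotSMulTop x N) := by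
        apply ih (B ⧸ Ideal.span {x}) (QuotSMulTop x N) (xs.map (Ideal.Quotient.mk (Ideal.span {x})))
        · simpa using hlen
        · rw [← map_maximalIdeal_of_surjective (Ideal.Quotient.mk (Ideal.span {x}))
            Ideal.Quotient.mk_surjective, ← hm, Ideal.ofList_cons, Ideal.map_sup, Ideal.map_ofList]
          have : Ideal.map (Ideal.Quotient.mk (Ideal.span {x})) (Ideal.span {x}) = ⊥ := by
            rw [Ideal.map_eq_bot_iff_le_ker, Ideal.mk_ker]
          rw [this, bot_sup_eq]
        · exact hreg.2
      have : Module.FinitePresentation B N := Module.finitePresentation_of_finite B N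
      exact (Module.free_quotSMulTop_iff_free B N
        ((IsLocalRing.maximalIdeal_le_jacobson _) hxm) hreg.1).mp hfree

/-- Maximal Cohen–Macaulay modules over a local ring whose maximal ideal is generated by
`depth`-many elements are free. -/
theorem free_of_isRegular_of_length_eq {B : Type u} [CommRing B] [IsLocalRing B]
    [IsNoetherianRing B] {N : Type u} [AddCommGroup N] [Module B N] [Module.Finite B N]
    (xs rs : List B) (hm : Ideal.ofList xs = maximalIdeal B) (hrs : IsRegular N rs)
    (hlen : rs.length = xs.length) : Module.Free B N := by
  apply free_of_isWeaklyRegular_generators xs.length B N xs rfl hm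
  exact isWeaklyRegular_of_generators xs ⊥ bot_le (by rw [bot_sup_eq, hm]) rs hrs hlen

end Fermat.Agent.S57
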