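import Mathlib.RingTheory.MvPowerSeries.Equiv
import Mathlib.RingTheory.MvPowerSeries.Inverse
import Mathlib.RingTheory.MvPowerSeries.NoZeroDivisors
import Mathlib.RingTheory.Regular.RegularSequence
import Mathlib.RingTheory.DiscreteValuationRing.Basic

set_option autoImplicit false

namespace Fermat.Agent.S57

open IsLocalRing RingTheory.Sequence Submodule
open scoped Pointwise

universe u

/-- Lemma E1. -/
theorem isWeaklyRegular_cons_of_surjective {A A' : Type*} [CommRing A] [CommRing A']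
    (ρ : A →+* A') (hρ : Function.Surjective ρ) (t : A) (hker : RingHom.ker ρ = Ideal.span {t})
    (ht : IsSMulRegular A t) (rs : List A) (h : IsWeaklyRegular A' (rs.map ρ)) :
    IsWeaklyRegular A (t :: rs) := by
  rw [isWeaklyRegular_cons_iff]
  refine ⟨ht, ?_⟩
  have heq : (t • (⊤ : Submodule A A)) = RingHom.ker ρ := by
    rw [hker, ← Submodule.ideal_span_singleton_smul]
    simp
  let e : QuotSMulTop t A ≃+ A' :=
    (Submodule.quotEquivOfEq _ _ heq).toAddEquiv.trans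
      (RingHom.quotientKerEquivOfSurjective hρ).toAddEquiv
  refine (AddEquiv.isWeaklyRegular_congr (e := e) ?_).mpr h
  rw [List.forall₂_map_right_iff, List.forall₂_same]
  intro r _ x
  obtain ⟨a, rfl⟩ := Submodule.Quotient.mk_surjective _ x
  change ρ (r • a) = ρ r • ρ a
  simp


section PowerSeries

variable (𝒪 : Type u) [CommRing 𝒪]

/-- "Set `X 0 = 0`". -/
noncomputable def rho (r : ℕ) : MvPowerSeries (Fin (r + 1)) 𝒪 →+* MvPowerSeries (Fin r) 𝒪 :=
  (PowerSeries.constantCoeff (R := MvPowerSeries (Fin r) 𝒪)).comp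
    (MvPowerSeries.finSuccEquiv 𝒪 r).toRingEquiv.toRingHom

theorem rho_X_succ (r : ℕ) (j : Fin r) : rho 𝒪 r (MvPowerSeries.X j.succ) = MvPowerSeries.X j := by
  simp [rho]

theorem rho_C (r : ℕ) (a : 𝒪) : rho 𝒪 r (MvPowerSeries.C a) = MvPowerSeries.C a := by
  simp [rho]

theorem rho_surjective (r : ℕ) : Function.Surjective (rho 𝒪 r) := by
  intro f
  refine ⟨(MvPowerSeries.finSuccEquiv 𝒪 r).symm (PowerSeries.C f), ?_⟩
  simp [rho]

theorem ker_rho (r : ℕ) : RingHom.ker (rho 𝒪 r) = Ideal.span {MvPowerSeries.X 0} := by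
  ext f
  rw [RingHom.mem_ker, Ideal.mem_span_singleton]
  have h1 : rho 𝒪 r f = PowerSeries.constantCoeff (MvPowerSeries.finSuccEquiv 𝒪 r f) := rfl
  rw [h1, ← PowerSeries.X_dvd_iff, ← MvPowerSeries.finSuccEquiv_X_zero (R := 𝒪) (n := r)]
  exact map_dvd_iff (MvPowerSeries.finSuccEquiv 𝒪 r)

/-- The standard generators of the maximal ideal. -/
noncomputable def stdSeq (ϖ : 𝒪) (r : ℕ) : List (MvPowerSeries (Fin r) 𝒪) :=
  List.ofFn (fun i : Fin r => (MvPowerSeries.X i : MvPowerSeries (Fin r) 𝒪)) ++ [MvPowerSeries.C ϖ]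

theorem stdSeq_length (ϖ : 𝒪) (r : ℕ) : (stdSeq 𝒪 ϖ r).length = r + 1 := by
  simp [stdSeq]

theorem stdSeq_succ (ϖ : 𝒪) (r : ℕ) :
    ∃ l : List (MvPowerSeries (Fin (r + 1)) 𝒪), stdSeq 𝒪 ϖ (r + 1) = MvPowerSeries.X 0 :: l ∧
      l.map (rho 𝒪 r) = stdSeq 𝒪 ϖ r := by
  refine ⟨List.ofFn (fun i : Fin r => (MvPowerSeries.X i.succ : MvPowerSeries (Fin (r + 1)) 𝒪)) ++
    [MvPowerSeries.C ϖ], ?_, ?_⟩
  · simp [stdSeq, List.ofFn_succ]
  · simp [stdSeq, List.map_ofFn, Function.comp_def, rho_X_succ, rho_C]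

theorem isWeaklyRegular_stdSeq [IsDomain 𝒪] (ϖ : 𝒪) (hϖ : ϖ ≠ 0) (r : ℕ) :
    IsWeaklyRegular (MvPowerSeries (Fin r) 𝒪) (stdSeq 𝒪 ϖ r) := by
  induction r with
  | zero =>
    simp only [stdSeq, List.ofFn_zero, List.nil_append]
    rw [isWeaklyRegular_singleton_iff]
    apply IsLeftRegular.isSMulRegular
    apply IsLeftCancelMulZero.mul_left_cancel_of_ne_zero
    intro h
    apply hϖ
    apply MvPowerSeries.C_injective (σ := Fin 0)
    rw [h, map_zero]
  | succ r ih =>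
    obtain ⟨l, h1, h2⟩ := stdSeq_succ 𝒪 ϖ r
    rw [h1]
    apply isWeaklyRegular_cons_of_surjective (rho 𝒪 r) (rho_surjective 𝒪 r) _ (ker_rho 𝒪 r)
    · apply IsLeftRegular.isSMulRegular
      apply IsLeftCancelMulZero.mul_left_cancel_of_ne_zero
      intro h
      have := congrArg (MvPowerSeries.coeff (Finsupp.single (0 : Fin (r + 1)) 1)) h
      rw [MvPowerSeries.coeff_index_single_self_X, map_zero] at this
      exact one_ne_zero this
    · rw [h2]; exact ih

theorem ofList_stdSeq [IsLocalRing 𝒪] (ϖ : 𝒪) (hϖ : maximalIdeal 𝒪 = Ideal.span {ϖ}) (r : ℕ) :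
    Ideal.ofList (stdSeq 𝒪 ϖ r) = maximalIdeal (MvPowerSeries (Fin r) 𝒪) := by
  induction r with
  | zero =>
    simp only [stdSeq, List.ofFn_zero, List.nil_append]
    rw [Ideal.ofList_singleton,
      ← map_ringEquiv_maximalIdeal (MvPowerSeries.isEmptyEquiv (Fin 0) 𝒪).toRingEquiv.symm, hϖ,
      Ideal.map_span, Set.image_singleton]
    rfl
  | succ r ih =>
    obtain ⟨l, h1, h2⟩ := stdSeq_succ 𝒪 ϖ r
    have := IsLocalHom.of_surjective (rho 𝒪 r) (rho_surjective 𝒪 r)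
    rw [← maximalIdeal_comap (rho 𝒪 r), ← ih, ← h2, ← Ideal.map_ofList,
      Ideal.comap_map_of_surjective _ (rho_surjective 𝒪 r), h1, Ideal.ofList_cons, sup_comm]
    congr 1
    exact (ker_rho 𝒪 r).symm

end PowerSeries

end Fermat.Agent.S57
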