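import Mathlib.RingTheory.Ideal.AssociatedPrime.Basic
import Mathlib.RingTheory.Regular.RegularSequence
import Mathlib.RingTheory.KrullDimension.Regular
import Mathlib.RingTheory.KrullDimension.NonZeroDivisors
import Mathlib.RingTheory.Nakayama

set_option autoImplicit false

namespace Fermat.Agent.S57

open IsLocalRing RingTheory.Sequence Submodule

universe u v

/-- For primes `p < q`, `dim B/q + 1 ≤ dim B/p`. -/
theorem ringKrullDim_quotient_succ_le_of_lt {B : Type u} [CommRing B]
    {p q : Ideal B} [p.IsPrime] (hpq : p ≤ q) {y : B} (hyq : y ∈ q) (hyp : y ∉ p) :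
    ringKrullDim (B ⧸ q) + 1 ≤ ringKrullDim (B ⧸ p) := by
  have hy : (Ideal.Quotient.mk p y) ∈ nonZeroDivisors (B ⧸ p) := by
    rw [mem_nonZeroDivisors_iff_ne_zero]
    intro h
    exact hyp (Ideal.Quotient.eq_zero_iff_mem.mp h)
  refine le_trans ?_ (ringKrullDim_quotient_succ_le_of_nonZeroDivisor hy)
  gcongr
  -- surjection (B/p)/(y) → B/q
  let f : (B ⧸ p) →+* (B ⧸ q) := Ideal.Quotient.factor hpq
  have hf : ∀ a ∈ Ideal.span {Ideal.Quotient.mk p y}, f a = 0 := by
    intro a ha
    have : Ideal.span {Ideal.Quotient.mk p y} ≤ RingHom.ker f := by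
      rw [Ideal.span_le, Set.singleton_subset_iff]
      simp only [SetLike.mem_coe, RingHom.mem_ker, f, Ideal.Quotient.factor_mk]
      exact Ideal.Quotient.eq_zero_iff_mem.mpr hyq
    exact this ha
  let g : ((B ⧸ p) ⧸ Ideal.span {Ideal.Quotient.mk p y}) →+* (B ⧸ q) := Ideal.Quotient.lift _ f hf
  apply ringKrullDim_le_of_surjective g
  intro b
  obtain ⟨b, rfl⟩ := Ideal.Quotient.mk_surjective b
  exact ⟨Ideal.Quotient.mk _ (Ideal.Quotient.mk p b), by simp [g, f]⟩

/-- Key step: if `y ∈ m` is `N`-regular and `p ∈ Ass N` then there is `q ∈ Ass (N/yN)` with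
`p ≤ q`, `y ∈ q`, `y ∉ p`. -/
theorem exists_isAssociatedPrime_quotSMulTop {B : Type u} [CommRing B] [IsLocalRing B]
    [IsNoetherianRing B] {N : Type v} [AddCommGroup N] [Module B N] [Module.Finite B N]
    {y : B} (hy : IsSMulRegular N y) (hym : y ∈ maximalIdeal B)
    {p : Ideal B} (hp : IsAssociatedPrime p N) :
    ∃ q : Ideal B, IsAssociatedPrime q (QuotSMulTop y N) ∧ p ≤ q ∧ y ∈ q ∧ y ∉ p := by
  obtain ⟨hpp, u, hu⟩ := isAssociatedPrime_iff.mp hp
  have hu0 : u ≠ 0 := by
    rintro rfl
    apply hpp.ne_top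
    rw [hu]
    ext a
    simp [mem_colon_singleton]
  -- the submodule killed by p
  let Np : Submodule B N :=
    { carrier := {n | ∀ a ∈ p, a • n = 0}
      add_mem' := by
        intro a b ha hb c hc
        rw [smul_add, ha c hc, hb c hc, add_zero]
      zero_mem' := by intro c _; simp
      smul_mem' := by
        intro c n hn a ha
        rw [smul_comm, hn a ha, smul_zero] }
  have huNp : u ∈ Np := by
    intro a ha
    rw [hu, mem_colon_singleton, mem_bot] at ha
    exact ha
  have hNp : Np ≠ ⊥ := by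
    intro h
    rw [h, mem_bot] at huNp
    exact hu0 huNp
  -- Np is not contained in yN
  have hnot : ¬ (Np ≤ (Ideal.span {y}) • (⊤ : Submodule B N)) := by
    intro hle
    apply hNp
    have hfg : Np.FG := IsNoetherian.noetherian Np
    apply Submodule.eq_bot_of_le_smul_of_le_jacobson_bot (Ideal.span {y}) Np hfg
    · intro n hn
      have h1 := hle hn
      rw [Submodule.ideal_span_singleton_smul, Submodule.mem_smul_pointwise_iff_exists] at h1
      obtain ⟨n', -, rfl⟩ := h1
      rw [Submodule.ideal_span_singleton_smul]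
      apply Submodule.smul_mem_pointwise_smul
      intro a ha
      have := hn a ha
      rw [smul_comm] at this
      exact hy.right_eq_zero_of_smul this
    · rw [Ideal.span_le, Set.singleton_subset_iff]
      exact (IsLocalRing.maximalIdeal_le_jacobson _) hym
  obtain ⟨w, hwNp, hw⟩ := SetLike.not_le_iff_exists.mp hnot
  have hw' : (Submodule.Quotient.mk w : QuotSMulTop y N) ≠ 0 := by
    intro h
    rw [Submodule.Quotient.mk_eq_zero] at h
    apply hw
    rwa [Submodule.ideal_span_singleton_smul]
  obtain ⟨q, hq, hle⟩ := exists_le_isAssociatedPrime_of_isNoetherianRing B _ hw'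
  refine ⟨q, hq, ?_, ?_, ?_⟩
  · intro a ha
    apply hle
    rw [mem_colon_singleton, mem_bot, ← Submodule.Quotient.mk_smul, hwNp a ha,
      Submodule.Quotient.mk_zero]
  · apply hle
    rw [mem_colon_singleton, mem_bot, ← Submodule.Quotient.mk_smul, Submodule.Quotient.mk_eq_zero]
    exact Submodule.smul_mem_pointwise_smul _ _ _ trivial
  · intro hyp
    rw [hu, mem_colon_singleton, mem_bot] at hyp
    exact hu0 (hy.right_eq_zero_of_smul hyp)

/-- Lemma A: the length of a regular sequence is bounded by `dim B/p` for `p ∈ Ass N`. -/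
theorem length_le_ringKrullDim_quotient_of_isAssociatedPrime {B : Type u} [CommRing B]
    [IsLocalRing B] [IsNoetherianRing B] (rs : List B) :
    ∀ {N : Type v} [AddCommGroup N] [Module B N] [Module.Finite B N],
      IsWeaklyRegular N rs → (∀ r ∈ rs, r ∈ maximalIdeal B) →
      ∀ p : Ideal B, IsAssociatedPrime p N → (rs.length : WithBot ℕ∞) ≤ ringKrullDim (B ⧸ p) := by
  induction rs with
  | nil =>
    intro N _ _ _ _ _ p hp
    have := hp.isPrime
    simpa using ringKrullDim_nonneg_of_nontrivial (R := B ⧸ p)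
  | cons y rs ih =>
    intro N _ _ _ hreg hmem p hp
    rw [isWeaklyRegular_cons_iff] at hreg
    have hpp := hp.isPrime
    obtain ⟨q, hq, hpq, hyq, hyp⟩ :=
      exists_isAssociatedPrime_quotSMulTop hreg.1 (hmem y List.mem_cons_self) hp
    have h1 := ih hreg.2 (fun r hr => hmem r (List.mem_cons_of_mem _ hr)) q hq
    have h2 := ringKrullDim_quotient_succ_le_of_lt hpq hyq hyp
    refine le_trans ?_ h2
    simp only [List.length_cons, Nat.cast_add, Nat.cast_one]
    gcongr

end Fermat.Agent.S57
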