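import Mathlib.RingTheory.Depth.Rees

set_option autoImplicit false

namespace Fermat.Agent.S57

open IsLocalRing RingTheory.Sequence Submodule CategoryTheory Abelian

universe u

theorem mem_maximalIdeal_of_isRegular {B : Type u} [CommRing B] [IsLocalRing B]
    {N : Type*} [AddCommGroup N] [Module B N]
    {rs : List B} (hrs : IsRegular N rs) : ∀ r ∈ rs, r ∈ maximalIdeal B := by
  intro r hr
  by_contra h
  have hu : IsUnit r := by simpa using h
  apply hrs.top_ne_smul
  have : Ideal.ofList rs = ⊤ := by
    apply Ideal.eq_top_of_isUnit_mem _ _ hu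
    exact Ideal.subset_span hr
  rw [this, Submodule.top_smul]

theorem maximalIdeal_smul_top_lt_top {B : Type u} [CommRing B] [IsLocalRing B]
    {N : Type*} [AddCommGroup N] [Module B N] [Module.Finite B N] [Nontrivial N] :
    maximalIdeal B • (⊤ : Submodule B N) < ⊤ := by
  rw [lt_top_iff_ne_top]
  intro h
  have := Submodule.eq_bot_of_le_smul_of_le_jacobson_bot (maximalIdeal B) (⊤ : Submodule B N)
    Module.Finite.fg_top h.ge (IsLocalRing.maximalIdeal_le_jacobson _)
  exact top_ne_bot this

/-- Lemma C (from the Rees theorem): depth drops by exactly one modulo a regular element. -/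
theorem exists_isRegular_quotSMulTop {B : Type u} [CommRing B] [IsLocalRing B]
    [IsNoetherianRing B] {N : Type u} [AddCommGroup N] [Module B N] [Module.Finite B N]
    {x : B} (hx : IsSMulRegular N x) (hxm : x ∈ maximalIdeal B)
    {rs : List B} (hrs : IsRegular N rs) {n : ℕ} (hlen : rs.length = n + 1) :
    ∃ rs' : List B, rs'.length = n ∧ IsRegular (QuotSMulTop x N) rs' := by
  have hmem := mem_maximalIdeal_of_isRegular hrs
  have hN : Nontrivial N := hrs.nontrivial
  have smul_lt : maximalIdeal B • (⊤ : Submodule B N) < ⊤ := maximalIdeal_smul_top_lt_top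
  have hN' : Nontrivial (QuotSMulTop x N) := nontrivial_quotSMulTop_of_mem_maximalIdeal N hxm
  have smul_lt' : maximalIdeal B • (⊤ : Submodule B (QuotSMulTop x N)) < ⊤ :=
    maximalIdeal_smul_top_lt_top
  let K : ModuleCat.{u} B := ModuleCat.of B (B ⧸ maximalIdeal B)
  have hsupp : Module.support B K = PrimeSpectrum.zeroLocus (maximalIdeal B) := by
    rw [Module.support_eq_zeroLocus, Ideal.annihilator_quotient]
  have hfinK : Module.Finite B K := inferInstanceAs (Module.Finite B (B ⧸ maximalIdeal B))
  have h_ext : ∀ i < n + 1, Subsingleton (Ext K (ModuleCat.of B N) i) := by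
    intro i hi
    exact ModuleCat.subsingleton_ext_of_exists_isRegular (maximalIdeal B) K hsupp.subset
      (ModuleCat.of B N) smul_lt rs hmem hrs i (hlen ▸ hi)
  have h_ext' : ∀ i < n, Subsingleton (Ext K (ModuleCat.of B (QuotSMulTop x N)) i) := by
    intro i hi
    have zero1 := AddCommGrpCat.isZero_of_iff_subsingleton.mpr (h_ext i (by omega))
    have zero2 := AddCommGrpCat.isZero_of_iff_subsingleton.mpr (h_ext (i + 1) (by omega))
    exact AddCommGrpCat.subsingleton_of_isZero <| ShortComplex.Exact.isZero_of_both_zeros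
      ((Ext.covariant_sequence_exact₃' K (IsSMulRegular.smulShortComplex_shortExact (M := ModuleCat.of B N) hx)) i (i + 1) rfl)
      (zero1.eq_zero_of_src _) (zero2.eq_zero_of_tgt _)
  obtain ⟨rs', len, -, reg⟩ := ModuleCat.exists_isRegular_of_exists_subsingleton_ext
    (maximalIdeal B) n (ModuleCat.of B (QuotSMulTop x N)) smul_lt' K hsupp h_ext'
  exact ⟨rs', len, reg⟩

end Fermat.Agent.S57
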