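import Fermat.Agent.S57.AssDim
import Fermat.Agent.S57.ReesStep
import Mathlib.RingTheory.Ideal.KrullsHeightTheorem
import Mathlib.RingTheory.Regular.Free

set_option autoImplicit false

namespace Fermat.Agent.S57

open IsLocalRing RingTheory.Sequence Submodule

universe u

theorem spanFinrank_ofList_le {B : Type u} [CommRing B] (l : List B) :
    (Ideal.ofList l).spanFinrank ≤ l.length := by
  classical
  have hfin : ({r | r ∈ l} : Set B).Finite := List.finite_toSet l
  refine le_trans (Submodule.spanFinrank_span_le_ncard_of_finite hfin) ?_
  have : ({r | r ∈ l} : Set B) = (l.toFinset : Set B) := by ext; simp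
  rw [this, Set.ncard_coe_finset]
  exact List.toFinset_card_le l

/-- Lemma B. -/
theorem ringKrullDim_quotient_le_length {B : Type u} [CommRing B] [IsLocalRing B]
    [IsNoetherianRing B] {p J : Ideal B} [p.IsPrime] (hJ : J ≤ p) (xs : List B)
    (hm : J ⊔ Ideal.ofList xs = maximalIdeal B) :
    ringKrullDim (B ⧸ p) ≤ (xs.length : WithBot ℕ∞) := by
  have : IsLocalRing (B ⧸ p) :=
    IsLocalRing.of_surjective' (Ideal.Quotient.mk p) Ideal.Quotient.mk_surjective
  have h1 : maximalIdeal (B ⧸ p) = Ideal.ofList (xs.map (Ideal.Quotient.mk p)) := by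
    rw [← map_maximalIdeal_of_surjective (Ideal.Quotient.mk p) Ideal.Quotient.mk_surjective, ← hm,
      Ideal.map_sup, Ideal.map_ofList]
    have : Ideal.map (Ideal.Quotient.mk p) J = ⊥ := by
      rw [Ideal.map_eq_bot_iff_le_ker, Ideal.mk_ker]
      exact hJ
    rw [this, bot_sup_eq]
  refine le_trans (ringKrullDim_le_spanFinrank_maximalIdeal (B ⧸ p)) ?_
  rw [h1]
  have := spanFinrank_ofList_le (xs.map (Ideal.Quotient.mk p))
  rw [List.length_map] at this
  exact_mod_cast this

/-- Theorem T: generators of the maximal ideal (mod the annihilator) form a regular sequence on a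
maximal Cohen-Macaulay module. -/
theorem isWeaklyRegular_of_generators {B : Type u} [CommRing B] [IsLocalRing B]
    [IsNoetherianRing B] (xs : List B) :
    ∀ {N : Type u} [AddCommGroup N] [Module B N] [Module.Finite B N] (I : Ideal B),
      I ≤ Module.annihilator B N → I ⊔ Ideal.ofList xs = maximalIdeal B →
      ∀ rs : List B, IsRegular N rs → rs.length = xs.length → IsWeaklyRegular N xs := by
  induction xs with
  | nil => intros; exact IsWeaklyRegular.nil _ _
  | cons x xs ih =>
    intro N _ _ _ I hI hm rs hrs hlen
    have hxm : x ∈ maximalIdeal B := by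
      rw [← hm]
      apply Ideal.mem_sup_right
      exact Ideal.subset_span List.mem_cons_self
    have hx : IsSMulRegular N x := by
      by_contra hx
      have : ∃ n : N, n ≠ 0 ∧ x • n = 0 := by
        by_contra hcon
        push Not at hcon
        apply hx
        rw [isSMulRegular_iff_right_eq_zero_of_smul]
        intro n hn
        by_contra hn0
        exact hcon n hn0 hn
      have hmemU : x ∈ ⋃ p ∈ associatedPrimes B N, (p : Set B) := by
        rw [biUnion_associatedPrimes_eq_zero_divisors]
        exact this
      simp only [Set.mem_iUnion, SetLike.mem_coe, exists_prop] at hmemU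
      obtain ⟨p, hp, hxp⟩ := hmemU
      have hpp : p.IsPrime := hp.isPrime
      have hIp : I ≤ p := by
        refine le_trans hI ?_
        have := IsAssociatedPrime.annihilator_le hp
        rwa [Submodule.annihilator_top] at this
      have hA := length_le_ringKrullDim_quotient_of_isAssociatedPrime rs hrs.toIsWeaklyRegular
        (mem_maximalIdeal_of_isRegular hrs) p hp
      have hB := ringKrullDim_quotient_le_length (p := p) (J := I ⊔ Ideal.span {x})
        (sup_le hIp (by rwa [Ideal.span_le, Set.singleton_subset_iff])) xs
        (by rw [← hm, Ideal.ofList_cons, sup_assoc])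
      have := le_trans hA hB
      rw [hlen, List.length_cons] at this
      have h3 : (xs.length + 1 : ℕ) ≤ xs.length := by exact_mod_cast this
      omega
    rw [isWeaklyRegular_cons_iff]
    refine ⟨hx, ?_⟩
    obtain ⟨rs', hlen', hrs'⟩ := exists_isRegular_quotSMulTop hx hxm hrs (n := xs.length)
      (by rw [hlen, List.length_cons])
    refine ih (I ⊔ Ideal.span {x}) ?_ (by rw [← hm, Ideal.ofList_cons, sup_assoc]) rs' hrs' hlen'
    apply sup_le
    · intro a ha
      rw [Module.mem_annihilator]
      intro n
      obtain ⟨n, rfl⟩ := Submodule.Quotient.mk_surjective _ n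
      rw [← Submodule.Quotient.mk_smul, Module.mem_annihilator.mp (hI ha) n,
        Submodule.Quotient.mk_zero]
    · rw [Ideal.span_le, Set.singleton_subset_iff]
      exact QuotSMulTop.mem_annihilator N x

end Fermat.Agent.S57
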